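/-
S45-TOP (helper54; lead STATUS-9 6215 §2): **the frozen statement S45 from S43 + S44 + an adapter**.

* `S43Shape P`, `S44Shape P` : the frozen statements S43 / S44 for the package `P`, verbatim
  (`@Fermat.Agent.S43.result P`, `@Fermat.Agent.S44.result P` once they are on main);
* `Adapter P` : `P.freyCurve.IsModular → (irreducible) → ∃ N, P.IsConductorLevel N ∧ P.ModularRepOfLevel N`
  (the S06-type input, CONDITIONAL on modularity of the Frey curve);
* `exists_level_dvd_two` : the descent loop — from a conductor level `N` with `ModularRepOfLevel N`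
  to a level `M ∣ 2` (strong induction on `N`; odd primes `q ≠ p` by S43 + S05 [main], `q = p` by S44);
* `s45_of_binders` : the conclusion of S45 (level `1` is excluded by S08 [main]).

WARNING (not formal): the frozen `IsModular` only gives an eigenform of ARBITRARY level `N'`
(no cube-free / `p² ∤ N'` restriction), so `Adapter` contains conductor–level matching at EVERY
level; S58 [main] gives it only from a cube-free level containing the bad primes.
-/
import Mathlib
import Fermat.Prelude.Def_FLTPrelim_FreyPackage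
import Fermat.Prelude.Def_FLTPrelim_GaloisRep
import Fermat.Prelude.Def_FLTPrelim_Modularity
import Fermat.Prelude.Def_FLTPrelim_ModularRep
import Fermat.Prelude.Def_FLTPrelim_Ramification
import Fermat.Prelude.Def_FLTPrelim_CofixedLine
import Fermat.Prelude.Def_FreyPackage_IsConductorLevel
import Fermat.Agent.S05
import Fermat.Agent.S08

set_option autoImplicit false

open WeierstrassCurve WeierstrassCurve.Affine WeierstrassCurve.Affine.Point
open CuspForm ModularFormClass UpperHalfPlane
open FreyPackage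

namespace Fermat.Agent.GT45

/-- The frozen statement S43 for the package `P` (binders verbatim). -/
def S43Shape (P : FreyPackage) : Prop :=
  ∀ {N q : ℕ} (_hcond : P.IsConductorLevel N) (_hq : q.Prime) (_hq2 : q ≠ 2) (_hqp : q ≠ P.p)
    (_hqN : q ∣ N)
    (_hirr : GaloisRepIsIrreducible (K := AlgebraicClosure ℚ) ℚ P.freyCurve P.p)
    (_hmod : P.ModularRepOfLevel N) (_hunr : P.GaloisRepUnramifiedAt q),
    ∃ M : ℕ, M ∣ N ∧ ¬ q ∣ M ∧ P.ModularRepOfLevel M

/-- The frozen statement S44 for the package `P` (binders verbatim). -/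
def S44Shape (P : FreyPackage) : Prop :=
  ∀ {N : ℕ} (_hcond : P.IsConductorLevel N) (_hpN : P.p ∣ N)
    (_hirr : GaloisRepIsIrreducible (K := AlgebraicClosure ℚ) ℚ P.freyCurve P.p)
    (_hmod : P.ModularRepOfLevel N),
    ∃ M : ℕ, M ∣ N ∧ ¬ P.p ∣ M ∧ P.ModularRepOfLevel M

/-- The S06-type adapter, conditional on modularity of the Frey curve. -/
def Adapter (P : FreyPackage) : Prop :=
  P.freyCurve.IsModular →
    GaloisRepIsIrreducible (K := AlgebraicClosure ℚ) ℚ P.freyCurve P.p →
    ∃ N : ℕ, P.IsConductorLevel N ∧ P.ModularRepOfLevel N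

/-- A squarefree number all of whose prime factors are `2` divides `2`. -/
theorem dvd_two_of_squarefree {N : ℕ} (hsq : Squarefree N)
    (h : ∀ q : ℕ, q.Prime → q ∣ N → q = 2) : N ∣ 2 := by
  have hN0 : N ≠ 0 := hsq.ne_zero
  have hsub : N.primeFactors ⊆ {2} := by
    intro q hq
    rw [Nat.mem_primeFactors] at hq
    rw [Finset.mem_singleton]
    exact h q hq.1 hq.2.1
  have hprod : ∏ q ∈ N.primeFactors, q = N := Nat.prod_primeFactors_of_squarefree hsq
  have hdvd : (∏ q ∈ N.primeFactors, q) ∣ ∏ q ∈ ({2} : Finset ℕ), q :=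
    Finset.prod_dvd_prod_of_subset _ _ _ hsub
  rw [hprod, Finset.prod_singleton] at hdvd
  exact hdvd

/-- **The descent loop**: from a conductor level to a level dividing `2`. -/
theorem exists_level_dvd_two (P : FreyPackage) (h43 : S43Shape P) (h44 : S44Shape P)
    (hirr : GaloisRepIsIrreducible (K := AlgebraicClosure ℚ) ℚ P.freyCurve P.p) :
    ∀ N : ℕ, P.IsConductorLevel N → P.ModularRepOfLevel N →
      ∃ M : ℕ, M ∣ 2 ∧ P.ModularRepOfLevel M := by
  intro N
  induction N using Nat.strong_induction_on with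
  | _ N ih =>
    intro hcond hmod
    by_cases hodd : ∃ q : ℕ, q.Prime ∧ q ∣ N ∧ q ≠ 2
    · obtain ⟨q, hq, hqN, hq2⟩ := hodd
      -- remove `q` from the level
      have hstep : ∃ M : ℕ, M ∣ N ∧ ¬ q ∣ M ∧ P.ModularRepOfLevel M := by
        by_cases hqp : q = P.p
        · subst hqp
          exact h44 hcond hqN hirr hmod
        · exact h43 hcond hq hq2 hqp hqN hirr hmod (Fermat.Agent.S05.result P hq hq2 hqp)
      obtain ⟨M, hMN, hqM, hM⟩ := hstep
      have hMpos : 0 < M := Nat.pos_of_dvd_of_pos hMN hcond.pos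
      have hMne : M ≠ N := fun h => hqM (h ▸ hqN)
      have hMlt : M < N := lt_of_le_of_ne (Nat.le_of_dvd hcond.pos hMN) hMne
      exact ih M hMlt (hcond.of_dvd hMN hMpos) hM
    · refine ⟨N, dvd_two_of_squarefree hcond.squarefree ?_, hmod⟩
      intro q hq hqN
      by_contra hq2
      exact hodd ⟨q, hq, hqN, hq2⟩

/-- A level dividing `2` gives a nonzero weight-2 cusp form on `Γ₀(2)` (level `1` is excluded by
S08). -/
theorem exists_cuspForm_two_ne_zero (P : FreyPackage) {M : ℕ} (hM2 : M ∣ 2)
    (hM : P.ModularRepOfLevel M) :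
    ∃ f : CuspForm (CongruenceSubgroup.Gamma0 2) 2, f ≠ 0 := by
  rcases (Nat.dvd_prime Nat.prime_two).mp hM2 with rfl | rfl
  · obtain ⟨f, -, -, hf, -⟩ := hM
    exact absurd (Fermat.Agent.S08.result f) hf.ne_zero
  · obtain ⟨f, -, -, hf, -⟩ := hM
    exact ⟨f, hf.ne_zero⟩

/-- **S45 from S43 + S44 + the adapter** (conclusion = frozen S45 verbatim). -/
theorem s45_of_binders (P : FreyPackage) (h43 : S43Shape P) (h44 : S44Shape P)
    (hadapt : Adapter P) (hmod : P.freyCurve.IsModular)
    (hirr : GaloisRepIsIrreducible (K := AlgebraicClosure ℚ) ℚ P.freyCurve P.p) :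
    ∃ f : CuspForm (CongruenceSubgroup.Gamma0 2) 2, f ≠ 0 := by
  obtain ⟨N, hcond, hN⟩ := hadapt hmod hirr
  obtain ⟨M, hM2, hM⟩ := exists_level_dvd_two P h43 h44 hirr N hcond hN
  exact exists_cuspForm_two_ne_zero P hM2 hM

end Fermat.Agent.GT45
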